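import Mathlib

/-!
# P-EIS (S16), cohomological lower bound, module M3b: the cosets of `Γ₀(p)`

`X = SL(2, ℤ) ⧸ Γ₀(p)`, `x₀` the coset of `1`, `x₁ = S x₀`.  The `T`-orbits on `X` are `{x₀}`
and `X \ {x₀} = {T ^ j x₁}` (`j` modulo `p`).  Consequence (`h94_sum_orbit_eq_zero`): if
`c : X → ℤ` satisfies `c x₀ = 0` and `∑ x, c x = 0`, then the sum of `c` over `m` steps of any
closed `T`-path (`T ^ m y = y`) vanishes.
-/

set_option autoImplicit false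

open scoped MatrixGroups
open ModularGroup CongruenceSubgroup

namespace Fermat.Agent.S16.Coh

theorem h94_mem_Gamma0_iff (p : ℕ) (g : SL(2, ℤ)) : g ∈ Gamma0 p ↔ (p : ℤ) ∣ g 1 0 := by
  rw [Gamma0_mem, ZMod.intCast_zmod_eq_zero_iff_dvd]

theorem h94_neg_one_mem (p : ℕ) : (-1 : SL(2, ℤ)) ∈ Gamma0 p := by
  rw [h94_mem_Gamma0_iff]
  simp

theorem h94_T_mem (p : ℕ) : (T : SL(2, ℤ)) ∈ Gamma0 p := by
  rw [h94_mem_Gamma0_iff]
  simp [coe_T]

/-- the base point -/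
def h94_x0 (p : ℕ) : SL(2, ℤ) ⧸ Gamma0 p := ((1 : SL(2, ℤ)) : SL(2, ℤ) ⧸ Gamma0 p)

theorem h94_smul_mk (p : ℕ) (g h : SL(2, ℤ)) :
    g • ((h : SL(2, ℤ)) : SL(2, ℤ) ⧸ Gamma0 p) = ((g * h : SL(2, ℤ)) : SL(2, ℤ) ⧸ Gamma0 p) :=
  rfl

theorem h94_mk_eq_mk_iff (p : ℕ) (g h : SL(2, ℤ)) :
    ((g : SL(2, ℤ)) : SL(2, ℤ) ⧸ Gamma0 p) = (h : SL(2, ℤ) ⧸ Gamma0 p)
      ↔ (p : ℤ) ∣ (g⁻¹ * h) 1 0 := by
  rw [QuotientGroup.eq, h94_mem_Gamma0_iff]

theorem h94_smul_x0 (p : ℕ) (g : SL(2, ℤ)) :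
    g • h94_x0 p = ((g : SL(2, ℤ)) : SL(2, ℤ) ⧸ Gamma0 p) := by
  rw [h94_x0, h94_smul_mk, mul_one]

theorem h94_smul_x0_eq_iff (p : ℕ) (g : SL(2, ℤ)) : g • h94_x0 p = h94_x0 p ↔ g ∈ Gamma0 p := by
  rw [h94_smul_x0, h94_x0, eq_comm, QuotientGroup.eq, inv_one, one_mul]

theorem h94_neg_one_smul_quot (p : ℕ) (x : SL(2, ℤ) ⧸ Gamma0 p) : (-1 : SL(2, ℤ)) • x = x := by
  induction x using QuotientGroup.induction_on with
  | H g =>
    rw [h94_smul_mk, QuotientGroup.eq]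
    have h : ((-1 : SL(2, ℤ)) * g)⁻¹ * g = -1 := by simp
    rw [h]
    exact h94_neg_one_mem p

theorem h94_T_smul_x0 (p : ℕ) : (T : SL(2, ℤ)) • h94_x0 p = h94_x0 p :=
  (h94_smul_x0_eq_iff p T).mpr (h94_T_mem p)

theorem h94_T_zpow_smul_x0 (p : ℕ) (j : ℤ) : (T ^ j : SL(2, ℤ)) • h94_x0 p = h94_x0 p :=
  (h94_smul_x0_eq_iff p _).mpr ((Gamma0 p).zpow_mem (h94_T_mem p) j)

theorem h94_coe_T_zpow_S (j : ℤ) :
    ((T ^ j * S : SL(2, ℤ)) : Matrix (Fin 2) (Fin 2) ℤ) = !![j, -1; 1, 0] := by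
  rw [Matrix.SpecialLinearGroup.coe_mul, coe_T_zpow, coe_S]
  ext a b
  fin_cases a <;> fin_cases b <;> simp [Matrix.mul_apply, Fin.sum_univ_two]

theorem h94_T_zpow_S_inv_mul (j : ℤ) (h : SL(2, ℤ)) :
    ((T ^ j * S : SL(2, ℤ))⁻¹ * h) 1 0 = j * h 1 0 - h 0 0 := by
  rw [Matrix.SpecialLinearGroup.coe_mul, Matrix.SpecialLinearGroup.SL2_inv_expl]
  simp only [Matrix.mul_apply, Fin.sum_univ_two]
  rw [h94_coe_T_zpow_S]
  simp
  ring

variable (p : ℕ) [hp : Fact p.Prime]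

/-- the point `x₁ = S x₀` -/
def h94_x1 : SL(2, ℤ) ⧸ Gamma0 p := (S : SL(2, ℤ)) • h94_x0 p

theorem h94_T_zpow_smul_x1 (j : ℤ) :
    (T ^ j : SL(2, ℤ)) • h94_x1 p = ((T ^ j * S : SL(2, ℤ)) : SL(2, ℤ) ⧸ Gamma0 p) := by
  rw [h94_x1, h94_smul_x0, h94_smul_mk]

theorem h94_not_dvd_one : ¬ (p : ℤ) ∣ 1 := by
  intro h
  have h2 : (p : ℤ) = 1 ∨ (p : ℤ) = -1 := Int.isUnit_iff.mp (isUnit_of_dvd_one h)
  have h3 := hp.out.two_le
  omega

/-- Claim C: the points `T ^ j x₁` are different from `x₀`. -/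
theorem h94_T_zpow_smul_x1_ne (j : ℤ) : (T ^ j : SL(2, ℤ)) • h94_x1 p ≠ h94_x0 p := by
  intro h
  rw [h94_x1, ← mul_smul, h94_smul_x0_eq_iff, h94_mem_Gamma0_iff, h94_coe_T_zpow_S] at h
  exact h94_not_dvd_one p (by simpa using h)

theorem h94_x1_ne : h94_x1 p ≠ h94_x0 p := by
  have h := h94_T_zpow_smul_x1_ne p 0
  rwa [zpow_zero, one_smul] at h

/-- Claim B: `T ^ j x₁ = T ^ j' x₁` iff `j ≡ j'` modulo `p`. -/
theorem h94_T_zpow_smul_x1_eq_iff (j j' : ℤ) :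
    (T ^ j : SL(2, ℤ)) • h94_x1 p = (T ^ j' : SL(2, ℤ)) • h94_x1 p ↔ (p : ℤ) ∣ j - j' := by
  rw [h94_T_zpow_smul_x1, h94_T_zpow_smul_x1, h94_mk_eq_mk_iff, h94_T_zpow_S_inv_mul,
    h94_coe_T_zpow_S]
  simp

/-- Claim A: every point different from `x₀` is of the form `T ^ j x₁`. -/
theorem h94_exists_T_zpow_smul_x1 (x : SL(2, ℤ) ⧸ Gamma0 p) (hx : x ≠ h94_x0 p) :
    ∃ j : ℤ, x = (T ^ j : SL(2, ℤ)) • h94_x1 p := by
  induction x using QuotientGroup.induction_on with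
  | H h =>
    have hh : ¬ (p : ℤ) ∣ h 1 0 := by
      intro hd
      apply hx
      rw [← h94_smul_x0, h94_smul_x0_eq_iff, h94_mem_Gamma0_iff]
      exact hd
    have hcop : IsCoprime (h 1 0) (p : ℤ) := by
      have hpp : Prime (p : ℤ) := Nat.prime_iff_prime_int.mp hp.out
      exact ((Prime.coprime_iff_not_dvd hpp).mpr hh).symm
    obtain ⟨u, v, huv⟩ := hcop
    refine ⟨h 0 0 * u, ?_⟩
    rw [h94_T_zpow_smul_x1, eq_comm, h94_mk_eq_mk_iff, h94_T_zpow_S_inv_mul]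
    refine ⟨- (h 0 0 * v), ?_⟩
    linear_combination (h 0 0) * huv

/-- a lower-left entry zero means `± T ^ m`. -/
theorem h94_eq_T_zpow_of_c_eq_zero (t : SL(2, ℤ)) (ht : t 1 0 = 0) :
    ∃ m : ℤ, t = T ^ m ∨ t = - T ^ m := by
  have hdet : t 0 0 * t 1 1 - t 0 1 * t 1 0 = 1 := by
    have := t.det_coe
    rw [Matrix.det_fin_two] at this
    exact this
  rw [ht, mul_zero, sub_zero] at hdet
  rcases Int.eq_one_or_neg_one_of_mul_eq_one' hdet with ⟨h1, h2⟩ | ⟨h1, h2⟩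
  · refine ⟨t 0 1, Or.inl ?_⟩
    ext a b
    rw [coe_T_zpow]
    fin_cases a <;> fin_cases b <;> simp [h1, h2, ht]
  · refine ⟨- t 0 1, Or.inr ?_⟩
    ext a b
    rw [Matrix.SpecialLinearGroup.coe_neg, coe_T_zpow]
    fin_cases a <;> fin_cases b <;> simp [h1, h2, ht]

section Sum

variable {A : Type*} [AddCommGroup A] [Fintype (SL(2, ℤ) ⧸ Gamma0 p)]

/-- the sum of `c` over the big `T`-orbit -/
theorem h94_sum_big_orbit (c : SL(2, ℤ) ⧸ Gamma0 p → A) (hc0 : c (h94_x0 p) = 0)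
    (hsum : ∑ x, c x = 0) (i : ℤ) :
    ∑ j ∈ Finset.range p, c ((T ^ (i - (j : ℤ)) : SL(2, ℤ)) • h94_x1 p) = 0 := by
  classical
  have hp0 : (0 : ℤ) < p := by exact_mod_cast hp.out.pos
  have himage : (Finset.range p).image
      (fun j : ℕ => (T ^ (i - (j : ℤ)) : SL(2, ℤ)) • h94_x1 p)
      = Finset.univ.erase (h94_x0 p) := by
    ext x
    rw [Finset.mem_image, Finset.mem_erase]
    constructor
    · rintro ⟨j, -, rfl⟩
      exact ⟨h94_T_zpow_smul_x1_ne p _, Finset.mem_univ _⟩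
    · rintro ⟨hx, -⟩
      obtain ⟨k, rfl⟩ := h94_exists_T_zpow_smul_x1 p x hx
      refine ⟨((i - k) % (p : ℤ)).toNat, ?_, ?_⟩
      · rw [Finset.mem_range]
        have h1 : (i - k) % (p : ℤ) < p := Int.emod_lt_of_pos _ hp0
        have h2 : 0 ≤ (i - k) % (p : ℤ) := Int.emod_nonneg _ hp0.ne'
        omega
      · rw [h94_T_zpow_smul_x1_eq_iff]
        have h2 : 0 ≤ (i - k) % (p : ℤ) := Int.emod_nonneg _ hp0.ne'
        rw [Int.toNat_of_nonneg h2]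
        have h3 : (p : ℤ) ∣ (i - k) - (i - k) % (p : ℤ) := Int.dvd_self_sub_emod
        have h4 : i - (i - k) % (p : ℤ) - k = (i - k) - (i - k) % (p : ℤ) := by ring
        rw [h4]
        exact h3
  have hinj : Set.InjOn (fun j : ℕ => (T ^ (i - (j : ℤ)) : SL(2, ℤ)) • h94_x1 p)
      (Finset.range p : Set ℕ) := by
    intro j hj j' hj' h
    have hj1 : j < p := Finset.mem_range.mp hj
    have hj2 : j' < p := Finset.mem_range.mp hj'
    have h1 : (p : ℤ) ∣ (i - (j : ℤ)) - (i - (j' : ℤ)) := (h94_T_zpow_smul_x1_eq_iff p _ _).mp h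
    have h2 : (p : ℤ) ∣ (j' : ℤ) - (j : ℤ) := by
      have : (i - (j : ℤ)) - (i - (j' : ℤ)) = (j' : ℤ) - j := by ring
      rwa [this] at h1
    obtain ⟨q, hq⟩ := h2
    have hq0 : q = 0 := by
      by_contra hne
      rcases lt_or_gt_of_ne hne with hneg | hpos
      · have : (p : ℤ) * q ≤ (p : ℤ) * (-1) := by
          apply mul_le_mul_of_nonneg_left _ hp0.le
          omega
        omega
      · have : (p : ℤ) * 1 ≤ (p : ℤ) * q := by
          apply mul_le_mul_of_nonneg_left _ hp0.le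
          omega
        omega
    rw [hq0, mul_zero] at hq
    omega
  have h1 : ∑ j ∈ Finset.range p, c ((T ^ (i - (j : ℤ)) : SL(2, ℤ)) • h94_x1 p)
      = ∑ x ∈ Finset.univ.erase (h94_x0 p), c x := by
    rw [← himage, Finset.sum_image hinj]
  rw [h1]
  have h2 := Finset.add_sum_erase Finset.univ c (Finset.mem_univ (h94_x0 p))
  rw [hsum, hc0, zero_add] at h2
  exact h2

/-- **the orbit sums vanish**. -/
theorem h94_sum_orbit_eq_zero (c : SL(2, ℤ) ⧸ Gamma0 p → A) (hc0 : c (h94_x0 p) = 0)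
    (hsum : ∑ x, c x = 0) (y : SL(2, ℤ) ⧸ Gamma0 p) (m : ℕ)
    (hy : (T ^ m : SL(2, ℤ)) • y = y) :
    ∑ j ∈ Finset.range m, c (((T : SL(2, ℤ)) ^ j)⁻¹ • y) = 0 := by
  by_cases hy0 : y = h94_x0 p
  · subst hy0
    apply Finset.sum_eq_zero
    intro j _
    have : ((T : SL(2, ℤ)) ^ j)⁻¹ • h94_x0 p = h94_x0 p := by
      have h := h94_T_zpow_smul_x0 p (-(j : ℤ))
      rwa [zpow_neg, zpow_natCast] at h
    rw [this, hc0]
  · obtain ⟨i, rfl⟩ := h94_exists_T_zpow_smul_x1 p y hy0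
    have hterm : ∀ j : ℕ, ((T : SL(2, ℤ)) ^ j)⁻¹ • ((T ^ i : SL(2, ℤ)) • h94_x1 p)
        = (T ^ (i - (j : ℤ)) : SL(2, ℤ)) • h94_x1 p := by
      intro j
      rw [← mul_smul, ← zpow_natCast, ← zpow_neg, ← zpow_add]
      congr 2
      ring
    simp only [hterm]
    -- `p ∣ m`
    have hpm : (p : ℤ) ∣ (m : ℤ) := by
      rw [← mul_smul, ← zpow_natCast, ← zpow_add] at hy
      have := (h94_T_zpow_smul_x1_eq_iff p _ _).mp hy
      simpa using this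
    obtain ⟨q, hq⟩ := Int.natCast_dvd_natCast.mp hpm
    subst hq
    -- periodicity
    have hper : ∀ (a j : ℕ), c ((T ^ (i - ((p * a + j : ℕ) : ℤ)) : SL(2, ℤ)) • h94_x1 p)
        = c ((T ^ (i - (j : ℤ)) : SL(2, ℤ)) • h94_x1 p) := by
      intro a j
      congr 1
      rw [h94_T_zpow_smul_x1_eq_iff]
      refine ⟨-(a : ℤ), ?_⟩
      push_cast
      ring
    clear hy hpm
    induction q with
    | zero => simp
    | succ q ih =>
      rw [Nat.mul_succ, Finset.sum_range_add, ih, zero_add]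
      simp only [hper]
      exact h94_sum_big_orbit p c hc0 hsum i

end Sum

end Fermat.Agent.S16.Coh
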