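import Mathlib

/-!
# P-EIS (S16), cohomological lower bound, module M3a: lifting norm-zero functions

Let `σ : X → X` be an involution and `ā : X → ZMod n` with `ā x + ā (σ x) = 0`, vanishing at
the fixed points of `σ`.  Then `ā` lifts to `a : X → ℤ` with `a x + a (σ x) = 0`.
Similarly for maps `τ` with `τ³ = id`.
-/

set_option autoImplicit false

namespace Fermat.Agent.S16.Coh

/-- a set-theoretic section of `ℤ → ZMod n` -/
noncomputable def h94_sec (n : ℕ) (z : ZMod n) : ℤ :=
  (ZMod.intCast_surjective z).choose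

theorem h94_sec_cast (n : ℕ) (z : ZMod n) : ((h94_sec n z : ℤ) : ZMod n) = z :=
  (ZMod.intCast_surjective z).choose_spec

theorem h94_lift_involution {X : Type*} (n : ℕ) (σ : X → X) (hσ : ∀ x, σ (σ x) = x)
    (a' : X → ZMod n) (ha : ∀ x, a' x + a' (σ x) = 0) (hfix : ∀ x, σ x = x → a' x = 0) :
    ∃ a : X → ℤ, (∀ x, ((a x : ℤ) : ZMod n) = a' x) ∧ ∀ x, a x + a (σ x) = 0 := by
  classical
  let _ : LinearOrder X := IsWellOrder.linearOrder WellOrderingRel
  let a : X → ℤ := fun x =>
    if x < σ x then h94_sec n (a' x) else if σ x < x then - h94_sec n (a' (σ x)) else 0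
  refine ⟨a, fun x => ?_, fun x => ?_⟩
  · show (((if x < σ x then h94_sec n (a' x)
      else if σ x < x then - h94_sec n (a' (σ x)) else 0 : ℤ) : ℤ) : ZMod n) = a' x
    rcases lt_trichotomy x (σ x) with h | h | h
    · rw [if_pos h, h94_sec_cast]
    · have h1 : ¬ x < σ x := by rw [← h]; exact lt_irrefl _
      have h2 : ¬ σ x < x := by rw [← h]; exact lt_irrefl _
      rw [if_neg h1, if_neg h2, Int.cast_zero, hfix x h.symm]
    · rw [if_neg (not_lt_of_gt h), if_pos h, Int.cast_neg, h94_sec_cast]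
      exact (eq_neg_of_add_eq_zero_left (ha x)).symm
  · show (if x < σ x then h94_sec n (a' x)
        else if σ x < x then - h94_sec n (a' (σ x)) else 0)
      + (if σ x < σ (σ x) then h94_sec n (a' (σ x))
        else if σ (σ x) < σ x then - h94_sec n (a' (σ (σ x))) else 0) = 0
    rw [hσ x]
    rcases lt_trichotomy x (σ x) with h | h | h
    · rw [if_pos h, if_neg (not_lt_of_gt h), if_pos h]
      ring
    · have h1 : ¬ x < σ x := by rw [← h]; exact lt_irrefl _
      have h2 : ¬ σ x < x := by rw [← h]; exact lt_irrefl _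
      simp only [if_neg h1, if_neg h2, add_zero]
    · rw [if_neg (not_lt_of_gt h), if_pos h, if_pos h]
      ring

theorem h94_lift_order_three {X : Type*} (n : ℕ) (τ : X → X) (hτ : ∀ x, τ (τ (τ x)) = x)
    (b' : X → ZMod n) (hb : ∀ x, b' x + b' (τ x) + b' (τ (τ x)) = 0)
    (hfix : ∀ x, τ x = x → b' x = 0) :
    ∃ b : X → ℤ, (∀ x, ((b x : ℤ) : ZMod n) = b' x) ∧
      ∀ x, b x + b (τ x) + b (τ (τ x)) = 0 := by
  classical
  let _ : LinearOrder X := IsWellOrder.linearOrder WellOrderingRel
  -- the value at `x` with orbit `x, y = τ x, z = τ² x`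
  let val : X → X → X → ℤ := fun x y z =>
    if y = x then 0
    else if y < x ∧ z < x then - h94_sec n (b' y) - h94_sec n (b' z)
    else h94_sec n (b' x)
  let b : X → ℤ := fun x => val x (τ x) (τ (τ x))
  have hval : ∀ x y z, val x y z = if y = x then 0
    else if y < x ∧ z < x then - h94_sec n (b' y) - h94_sec n (b' z)
    else h94_sec n (b' x) := fun _ _ _ => rfl
  have hb1 : ∀ x, b x = val x (τ x) (τ (τ x)) := fun _ => rfl
  have hb2 : ∀ x, b (τ x) = val (τ x) (τ (τ x)) x := by
    intro x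
    rw [hb1 (τ x), hτ]
  have hb3 : ∀ x, b (τ (τ x)) = val (τ (τ x)) x (τ x) := by
    intro x
    rw [hb1 (τ (τ x)), hτ]
  -- free orbits
  have hfree1 : ∀ x, τ x ≠ x → τ (τ x) ≠ τ x := by
    intro x hx h
    apply hx
    have := congrArg τ h
    rw [hτ x] at this
    exact h.symm.trans this.symm
  have hfree2 : ∀ x, τ x ≠ x → τ (τ x) ≠ x := by
    intro x hx h
    apply hx
    have := congrArg τ h
    rw [hτ x] at this
    exact this.symm
  refine ⟨b, fun x => ?_, fun x => ?_⟩
  · rw [hb1, hval]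
    by_cases h0 : τ x = x
    · rw [if_pos h0, Int.cast_zero, hfix x h0]
    · rw [if_neg h0]
      by_cases h1 : τ x < x ∧ τ (τ x) < x
      · rw [if_pos h1, Int.cast_sub, Int.cast_neg, h94_sec_cast, h94_sec_cast]
        have := hb x
        linear_combination -this
      · rw [if_neg h1, h94_sec_cast]
  · by_cases h0 : τ x = x
    · have hb0 : b x = 0 := by rw [hb1, hval, if_pos h0]
      rw [h0, h0, hb0]; rfl
    · have h01 : τ (τ x) ≠ τ x := hfree1 x h0
      have h02 : τ (τ x) ≠ x := hfree2 x h0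
      have h02' : x ≠ τ (τ x) := fun h => h02 h.symm
      rw [hb1, hb2, hb3, hval, hval, hval, if_neg h0, if_neg h01, if_neg h02']
      rcases lt_trichotomy x (τ x) with hA | hA | hA
      · rcases lt_trichotomy (τ x) (τ (τ x)) with hB | hB | hB
        · -- max is `τ² x`
          have k1 : ¬ (τ x < x ∧ τ (τ x) < x) := fun h => absurd h.1 (not_lt_of_gt hA)
          have k2 : ¬ (τ (τ x) < τ x ∧ x < τ x) := fun h => absurd h.1 (not_lt_of_gt hB)
          have k3 : x < τ (τ x) ∧ τ x < τ (τ x) := ⟨hA.trans hB, hB⟩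
          rw [if_neg k1, if_neg k2, if_pos k3]; ring
        · exact absurd hB.symm h01
        · -- max is `τ x`
          have k1 : ¬ (τ x < x ∧ τ (τ x) < x) := fun h => absurd h.1 (not_lt_of_gt hA)
          have k2 : τ (τ x) < τ x ∧ x < τ x := ⟨hB, hA⟩
          have k3 : ¬ (x < τ (τ x) ∧ τ x < τ (τ x)) := fun h => absurd h.2 (not_lt_of_gt hB)
          rw [if_neg k1, if_pos k2, if_neg k3]; ring
      · exact absurd hA.symm h0
      · rcases lt_trichotomy x (τ (τ x)) with hC | hC | hC
        · -- max is `τ² x`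
          have k1 : ¬ (τ x < x ∧ τ (τ x) < x) := fun h => absurd h.2 (not_lt_of_gt hC)
          have k2 : ¬ (τ (τ x) < τ x ∧ x < τ x) := fun h => absurd h.2 (not_lt_of_gt hA)
          have k3 : x < τ (τ x) ∧ τ x < τ (τ x) := ⟨hC, hA.trans hC⟩
          rw [if_neg k1, if_neg k2, if_pos k3]; ring
        · exact absurd hC h02'
        · -- max is `x`
          have k1 : τ x < x ∧ τ (τ x) < x := ⟨hA, hC⟩
          have k2 : ¬ (τ (τ x) < τ x ∧ x < τ x) := fun h => absurd h.2 (not_lt_of_gt hA)
          have k3 : ¬ (x < τ (τ x) ∧ τ x < τ (τ x)) := fun h => absurd h.1 (not_lt_of_gt hC)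
          rw [if_pos k1, if_neg k2, if_neg k3]; ring

end Fermat.Agent.S16.Coh
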