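import Fermat.Agent.S16.Coh.Shapiro
import Fermat.Agent.S16.Coh.Lift
import Fermat.Agent.S16.Coh.Cosets
import Fermat.Agent.S21.H.Cocycle
import Fermat.Agent.S21.P.Parabolic
import Fermat.Prelude.Def_ModularCurve_PeriodMap
import Fermat.Prelude.Def_ModularCurve_ModularUnit

/-!
# P-EIS (S16), cohomological lower bound, module M3c: the Eisenstein character

`ψ : Γ₀(p) → ℤ/n`, `ψ(γ) = λ(d_γ mod p)`, `n = (p - 1) / gcd (p - 1, 12)`, where
`λ : (ℤ/p)ˣ → ℤ/n` is the surjection killing the `12`-torsion.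

Main result `h94_exists_parabolic_lift`: `ψ` is the reduction modulo `n` of a parabolic
homomorphism `b : Γ₀(p) → ℤ`.
-/

set_option autoImplicit false

open scoped MatrixGroups
open ModularGroup CongruenceSubgroup ModularCurve

namespace Fermat.Agent.S16.Coh

variable (p : ℕ) [hp : Fact p.Prime]

/-! ### the homomorphism `λ` -/

/-- a generator of `(ℤ/p)ˣ` -/
noncomputable def h94_gen0 : (ZMod p)ˣ := (IsCyclic.exists_generator (α := (ZMod p)ˣ)).choose

theorem h94_gen0_spec (x : (ZMod p)ˣ) : x ∈ Subgroup.zpowers (h94_gen0 p) :=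
  (IsCyclic.exists_generator (α := (ZMod p)ˣ)).choose_spec x

theorem h94_orderOf_gen0 : orderOf (h94_gen0 p) = p - 1 := by
  rw [orderOf_eq_card_of_forall_mem_zpowers (h94_gen0_spec p), Nat.card_eq_fintype_card,
    ZMod.card_units]

/-- the generator of the target -/
def h94_one' : Multiplicative (ZMod (eisensteinNumerator p)) :=
  Multiplicative.ofAdd (1 : ZMod (eisensteinNumerator p))

omit hp in
theorem h94_orderOf_one' : orderOf (h94_one' p) = eisensteinNumerator p := by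
  rw [h94_one', orderOf_ofAdd_eq_addOrderOf, ZMod.addOrderOf_one]

theorem h94_orderOf_dvd : orderOf (h94_one' p) ∣ orderOf (h94_gen0 p) := by
  rw [h94_orderOf_one', h94_orderOf_gen0]
  exact eisensteinNumerator_dvd p

/-- `λ : (ℤ/p)ˣ → ℤ/n` (multiplicative notation) -/
noncomputable def h94_lam : (ZMod p)ˣ →* Multiplicative (ZMod (eisensteinNumerator p)) :=
  monoidHomOfForallMemZpowers (h94_gen0_spec p) (h94_orderOf_dvd p)

theorem h94_lam_gen0 : h94_lam p (h94_gen0 p) = h94_one' p :=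
  monoidHomOfForallMemZpowers_apply_gen (h94_gen0_spec p) (h94_orderOf_dvd p)

omit hp in
theorem h94_numerator_mul_gcd : eisensteinNumerator p * Nat.gcd (p - 1) 12 = p - 1 :=
  Nat.div_mul_cancel (Nat.gcd_dvd_left _ _)

/-- `λ` kills the `12`-torsion. -/
theorem h94_lam_of_pow_twelve (x : (ZMod p)ˣ) (h : x ^ 12 = 1) : h94_lam p x = 1 := by
  obtain ⟨k, rfl⟩ := Subgroup.mem_zpowers_iff.mp (h94_gen0_spec p x)
  rw [map_zpow, h94_lam_gen0, ← orderOf_dvd_iff_zpow_eq_one, h94_orderOf_one']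
  have h1 : (h94_gen0 p) ^ (k * 12) = 1 := by
    rw [zpow_mul]
    exact_mod_cast h
  have h2 : ((p - 1 : ℕ) : ℤ) ∣ k * 12 := by
    rw [← h94_orderOf_gen0 p]
    exact orderOf_dvd_iff_zpow_eq_one.mpr h1
  set ν := Nat.gcd (p - 1) 12 with hν
  have hνpos : 0 < ν := Nat.gcd_pos_of_pos_right _ (by norm_num)
  have h12 : 12 / ν * ν = 12 := Nat.div_mul_cancel (Nat.gcd_dvd_right _ _)
  have hcop : Nat.Coprime (eisensteinNumerator p) (12 / ν) := by
    have := Nat.coprime_div_gcd_div_gcd (m := p - 1) (n := 12) hνpos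
    exact this
  have h3 : ((eisensteinNumerator p : ℕ) : ℤ) * (ν : ℤ) ∣ (k * ((12 / ν : ℕ) : ℤ)) * (ν : ℤ) := by
    have e1 : ((eisensteinNumerator p : ℕ) : ℤ) * (ν : ℤ) = ((p - 1 : ℕ) : ℤ) := by
      rw [← Nat.cast_mul, h94_numerator_mul_gcd]
    have e2 : (k * ((12 / ν : ℕ) : ℤ)) * (ν : ℤ) = k * 12 := by
      rw [mul_assoc, ← Nat.cast_mul, h12]
      norm_num
    rw [e1, e2]
    exact h2
  have h4 : ((eisensteinNumerator p : ℕ) : ℤ) ∣ k * ((12 / ν : ℕ) : ℤ) :=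
    Int.dvd_of_mul_dvd_mul_right (by exact_mod_cast hνpos.ne') h3
  have hcop' : IsCoprime ((eisensteinNumerator p : ℕ) : ℤ) ((12 / ν : ℕ) : ℤ) :=
    Nat.isCoprime_iff_coprime.mpr hcop
  exact hcop'.dvd_of_dvd_mul_right h4

/-! ### the character `ψ` -/

/-- `d mod p` as a unit -/
noncomputable def h94_dUnit : Gamma0 p →* (ZMod p)ˣ := (Gamma0Map p).toHomUnits

theorem h94_dUnit_coe (γ : Gamma0 p) :
    ((h94_dUnit p γ : (ZMod p)ˣ) : ZMod p) = (((γ : SL(2, ℤ)) 1 1 : ℤ) : ZMod p) := rfl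

/-- the Eisenstein character, multiplicative notation -/
noncomputable def h94_psi : Gamma0 p →* Multiplicative (ZMod (eisensteinNumerator p)) :=
  (h94_lam p).comp (h94_dUnit p)

/-- the Eisenstein character, as a function to `ℤ/n` -/
noncomputable def h94_psiA (γ : Gamma0 p) : ZMod (eisensteinNumerator p) :=
  Multiplicative.toAdd (h94_psi p γ)

theorem h94_psiA_mul (γ γ' : Gamma0 p) :
    h94_psiA p (γ * γ') = h94_psiA p γ + h94_psiA p γ' := by
  rw [h94_psiA, map_mul]; rfl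

theorem h94_psiA_one : h94_psiA p 1 = 0 := by
  rw [h94_psiA, map_one]; rfl

theorem h94_psiA_inv (γ : Gamma0 p) : h94_psiA p γ⁻¹ = - h94_psiA p γ := by
  rw [h94_psiA, map_inv]; rfl

theorem h94_psiA_conj (γ δ : Gamma0 p) : h94_psiA p (δ⁻¹ * γ * δ) = h94_psiA p γ := by
  rw [h94_psiA_mul, h94_psiA_mul, h94_psiA_inv]
  abel

theorem h94_psiA_of_pow_twelve (γ : Gamma0 p) (h : γ ^ 12 = 1) : h94_psiA p γ = 0 := by
  have h1 : (h94_dUnit p γ) ^ 12 = 1 := by rw [← map_pow, h, map_one]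
  have h2 := h94_lam_of_pow_twelve p _ h1
  rw [h94_psiA]
  show Multiplicative.toAdd ((h94_lam p) (h94_dUnit p γ)) = 0
  rw [h2]; rfl

/-! ### the cocycle of `ψ` -/

/-- the cocycle `κ̄ g x = ψ (r(x)⁻¹ g r(g⁻¹ x))`. -/
noncomputable def h94_kbar (g : SL(2, ℤ)) (x : SL(2, ℤ) ⧸ Gamma0 p) :
    ZMod (eisensteinNumerator p) :=
  h94_psiA p ⟨Fermat.Agent.S21.H.kap (Gamma0 p) g x, Fermat.Agent.S21.H.kap_mem (Gamma0 p) g x⟩

theorem h94_kbar_isCocycle : h94_IsCocycle (h94_kbar p) := by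
  intro g h y
  rw [h94_kbar, h94_kbar, h94_kbar, ← h94_psiA_mul]
  congr 1
  apply Subtype.ext
  exact Fermat.Agent.S21.H.kap_mul (Gamma0 p) g h y

theorem h94_kbar_of_fix (g : SL(2, ℤ)) (x : SL(2, ℤ) ⧸ Gamma0 p) (hx : g • x = x)
    (hg : g ^ 12 = 1) : h94_kbar p g x = 0 := by
  apply h94_psiA_of_pow_twelve
  apply Subtype.ext
  have h : g⁻¹ • x = x := by
    conv_lhs => rw [← hx]
    rw [inv_smul_smul]
  show (Fermat.Agent.S21.H.kap (Gamma0 p) g x) ^ 12 = 1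
  rw [Fermat.Agent.S21.H.kap, h]
  have : ∀ m : ℕ, ((Quotient.out x)⁻¹ * g * Quotient.out x) ^ m
      = (Quotient.out x)⁻¹ * g ^ m * Quotient.out x := by
    intro m
    induction m with
    | zero => simp
    | succ m ih => rw [pow_succ, ih, pow_succ]; group
  rw [this, hg]
  group

theorem h94_kbar_base (γ : Gamma0 p) :
    h94_kbar p (γ : SL(2, ℤ)) (h94_x0 p) = h94_psiA p γ := by
  have hfix : (γ : SL(2, ℤ))⁻¹ • h94_x0 p = h94_x0 p :=
    (h94_smul_x0_eq_iff p _).mpr ((Gamma0 p).inv_mem γ.2)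
  have hr : Quotient.out (h94_x0 p) ∈ Gamma0 p := Fermat.Agent.S21.H.out_one_mem (Gamma0 p)
  have h1 : (⟨Fermat.Agent.S21.H.kap (Gamma0 p) (γ : SL(2, ℤ)) (h94_x0 p),
      Fermat.Agent.S21.H.kap_mem (Gamma0 p) _ _⟩ : Gamma0 p)
      = (⟨Quotient.out (h94_x0 p), hr⟩ : Gamma0 p)⁻¹ * γ * ⟨Quotient.out (h94_x0 p), hr⟩ := by
    apply Subtype.ext
    show Fermat.Agent.S21.H.kap (Gamma0 p) (γ : SL(2, ℤ)) (h94_x0 p) = _
    rw [Fermat.Agent.S21.H.kap, hfix]
    rfl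
  rw [h94_kbar, h1, h94_psiA_conj]

theorem h94_neg_one_pow_twelve : (-1 : SL(2, ℤ)) ^ 12 = 1 := by
  have h : (-1 : SL(2, ℤ)) ^ 2 = 1 := by
    ext i j
    fin_cases i <;> fin_cases j <;> simp [pow_two]
  calc (-1 : SL(2, ℤ)) ^ 12 = ((-1 : SL(2, ℤ)) ^ 2) ^ 6 := by rw [← pow_mul]
    _ = 1 := by rw [h, one_pow]

theorem h94_S_pow_twelve : (S : SL(2, ℤ)) ^ 12 = 1 := by
  calc (S : SL(2, ℤ)) ^ 12 = ((S : SL(2, ℤ)) ^ 2) ^ 6 := by rw [← pow_mul]
    _ = 1 := by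
      rw [h94_S_sq]
      calc (-1 : SL(2, ℤ)) ^ 6 = ((-1 : SL(2, ℤ)) ^ 12) := by
            have h : (-1 : SL(2, ℤ)) ^ 2 = 1 := by
              ext i j
              fin_cases i <;> fin_cases j <;> simp [pow_two]
            rw [show (12 : ℕ) = 2 * 6 from rfl, show (6 : ℕ) = 2 * 3 from rfl, pow_mul, pow_mul,
              pow_mul, h, one_pow, one_pow, one_pow]
        _ = 1 := h94_neg_one_pow_twelve

theorem h94_U_pow_twelve : ((S : SL(2, ℤ)) * T) ^ 12 = 1 := by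
  calc ((S : SL(2, ℤ)) * T) ^ 12 = (((S : SL(2, ℤ)) * T) ^ 3) ^ 4 := by rw [← pow_mul]
    _ = 1 := by
      rw [h94_U_cube]
      have h : (-1 : SL(2, ℤ)) ^ 2 = 1 := by
        ext i j
        fin_cases i <;> fin_cases j <;> simp [pow_two]
      rw [show (4 : ℕ) = 2 * 2 from rfl, pow_mul, h, one_pow]

theorem h94_kbar_neg_one (x : SL(2, ℤ) ⧸ Gamma0 p) : h94_kbar p (-1) x = 0 :=
  h94_kbar_of_fix p (-1) x (h94_neg_one_smul_quot p x) h94_neg_one_pow_twelve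

theorem h94_kbar_S_rel (x : SL(2, ℤ) ⧸ Gamma0 p) :
    h94_kbar p S x + h94_kbar p S ((S : SL(2, ℤ)) • x) = 0 := by
  have h := h94_kbar_isCocycle p S S x
  rw [← pow_two, h94_S_sq, h94_kbar_neg_one, h94_S_inv_smul (h94_neg_one_smul_quot p)] at h
  exact h.symm

theorem h94_kbar_U_rel (x : SL(2, ℤ) ⧸ Gamma0 p) :
    h94_kbar p (S * T) x + h94_kbar p (S * T) (((S : SL(2, ℤ)) * T) • x)
      + h94_kbar p (S * T) (((S : SL(2, ℤ)) * T) • (((S : SL(2, ℤ)) * T) • x)) = 0 := by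
  have hneg := h94_neg_one_smul_quot p
  have h1 := h94_kbar_isCocycle p (S * T) ((S * T) * (S * T)) x
  have h2 := h94_kbar_isCocycle p (S * T) (S * T) (((S : SL(2, ℤ)) * T)⁻¹ • x)
  have e : ((S : SL(2, ℤ)) * T) * (((S : SL(2, ℤ)) * T) * ((S : SL(2, ℤ)) * T))
      = -1 := by
    rw [← h94_U_cube, pow_succ', pow_two]
  rw [e, h94_kbar_neg_one, h2] at h1
  have e1 : ((S : SL(2, ℤ)) * T)⁻¹ • x = ((S : SL(2, ℤ)) * T) • (((S : SL(2, ℤ)) * T) • x) :=
    h94_U_inv_smul hneg x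
  have e2 : ((S : SL(2, ℤ)) * T)⁻¹ • (((S : SL(2, ℤ)) * T)⁻¹ • x) = ((S : SL(2, ℤ)) * T) • x := by
    rw [e1, inv_smul_smul]
  rw [e2, e1] at h1
  rw [h1]
  abel

/-! ### the parabolic lift -/

theorem h94_psiA_T : h94_psiA p ⟨T, h94_T_mem p⟩ = 0 := by
  have h1 : h94_dUnit p ⟨T, h94_T_mem p⟩ = 1 := by
    apply Units.ext
    rw [h94_dUnit_coe]
    simp [coe_T]
  rw [h94_psiA]
  show Multiplicative.toAdd ((h94_lam p) (h94_dUnit p ⟨T, h94_T_mem p⟩)) = 0
  rw [h1, map_one]; rfl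

/-- **The Eisenstein character lifts to a parabolic integral homomorphism.** -/
theorem h94_exists_parabolic_lift :
    ∃ b : Additive (Gamma0 p) →+ ℤ, b ∈ Period.parabolicHoms ℤ (Gamma0 p) ℤ ∧
      ∀ γ : Gamma0 p, ((b (Additive.ofMul γ) : ℤ) : ZMod (eisensteinNumerator p))
        = h94_psiA p γ := by
  classical
  have : NeZero p := ⟨hp.out.ne_zero⟩
  have : Fintype (SL(2, ℤ) ⧸ Gamma0 p) := Fintype.ofFinite _
  have hneg := h94_neg_one_smul_quot p
  have hSS : ∀ x : SL(2, ℤ) ⧸ Gamma0 p, (S : SL(2, ℤ)) • ((S : SL(2, ℤ)) • x) = x := by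
    intro x
    rw [← mul_smul, ← pow_two, h94_S_sq, hneg]
  -- lifts
  obtain ⟨a₀, ha₀, ha₀rel⟩ := h94_lift_involution (eisensteinNumerator p)
    (fun x : SL(2, ℤ) ⧸ Gamma0 p => (S : SL(2, ℤ)) • x) hSS (h94_kbar p S)
    (h94_kbar_S_rel p) (fun x hx => h94_kbar_of_fix p S x hx h94_S_pow_twelve)
  obtain ⟨b, hb, hbrel⟩ := h94_lift_order_three (eisensteinNumerator p)
    (fun x : SL(2, ℤ) ⧸ Gamma0 p => ((S : SL(2, ℤ)) * T) • x) (h94_U_cube_smul hneg)
    (h94_kbar p (S * T)) (h94_kbar_U_rel p)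
    (fun x hx => h94_kbar_of_fix p (S * T) x hx h94_U_pow_twelve)
  -- the correction at `x₁`
  have hx10 : h94_x1 p ≠ h94_x0 p := h94_x1_ne p
  have hSx0 : (S : SL(2, ℤ)) • h94_x0 p = h94_x1 p := rfl
  have hSx1 : (S : SL(2, ℤ)) • h94_x1 p = h94_x0 p := by rw [← hSx0, hSS]
  have hk : (((b (h94_x1 p) - a₀ (h94_x1 p) : ℤ)) : ZMod (eisensteinNumerator p)) = 0 := by
    rw [Int.cast_sub, hb, ha₀]
    have h1 := (h94_kbar_isCocycle p).apply_T (h94_x0 p)
    rw [hSx0] at h1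
    rw [← h1]
    have h2 := h94_kbar_base p ⟨T, h94_T_mem p⟩
    rw [h2]
    exact h94_psiA_T p
  set k : ℤ := b (h94_x1 p) - a₀ (h94_x1 p) with hkdef
  let a : SL(2, ℤ) ⧸ Gamma0 p → ℤ := fun x =>
    a₀ x + (if x = h94_x1 p then k else 0) - (if x = h94_x0 p then k else 0)
  have hadef : ∀ x, a x = a₀ x + (if x = h94_x1 p then k else 0)
      - (if x = h94_x0 p then k else 0) := fun _ => rfl
  have ha : ∀ x, ((a x : ℤ) : ZMod (eisensteinNumerator p)) = h94_kbar p S x := by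
    intro x
    rw [hadef, Int.cast_sub, Int.cast_add, ha₀]
    have e1 : (((if x = h94_x1 p then k else 0 : ℤ)) : ZMod (eisensteinNumerator p)) = 0 := by
      split_ifs
      · exact hk
      · exact Int.cast_zero
    have e2 : (((if x = h94_x0 p then k else 0 : ℤ)) : ZMod (eisensteinNumerator p)) = 0 := by
      split_ifs
      · exact hk
      · exact Int.cast_zero
    rw [e1, e2, add_zero, sub_zero]
  have harel : ∀ x, a x + a ((S : SL(2, ℤ)) • x) = 0 := by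
    intro x
    rw [hadef, hadef]
    have i1 : ((S : SL(2, ℤ)) • x = h94_x1 p) ↔ x = h94_x0 p := by
      constructor
      · intro h
        have := congrArg (fun y => (S : SL(2, ℤ)) • y) h
        simp only [hSS, hSx1] at this
        exact this
      · intro h
        rw [h, hSx0]
    have i2 : ((S : SL(2, ℤ)) • x = h94_x0 p) ↔ x = h94_x1 p := by
      constructor
      · intro h
        have := congrArg (fun y => (S : SL(2, ℤ)) • y) h
        simp only [hSS, hSx0] at this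
        exact this
      · intro h
        rw [h, hSx1]
    simp only [i1, i2]
    have := ha₀rel x
    linear_combination this
  have hax1 : a (h94_x1 p) = b (h94_x1 p) := by
    rw [hadef, if_pos rfl, if_neg hx10, hkdef]
    ring
  -- the cocycle
  obtain ⟨κ, hκ, hκS, hκU⟩ := h94_exists_cocycle hneg a b harel hbrel
  have hSrel : ∀ x, κ S x + κ S ((S : SL(2, ℤ)) • x) = 0 := by
    intro x
    rw [hκS]
    exact harel x
  -- the values on `T`
  have hc : ∀ y, κ T y = b ((S : SL(2, ℤ)) • y) - a ((S : SL(2, ℤ)) • y) := by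
    intro y
    rw [hκ.apply_T, hκU, hκS]
  have hc0 : κ T (h94_x0 p) = 0 := by
    rw [hc, hSx0, hax1, sub_self]
  have hsuma : ∑ x, a x = 0 := by
    have h1 : ∑ x, a ((S : SL(2, ℤ)) • x) = ∑ x, a x :=
      Equiv.sum_comp (MulAction.toPerm (S : SL(2, ℤ))) a
    have h2 : ∑ x, (a x + a ((S : SL(2, ℤ)) • x)) = 0 :=
      Finset.sum_eq_zero (fun x _ => harel x)
    rw [Finset.sum_add_distrib, h1] at h2
    omega
  have hsumb : ∑ x, b x = 0 := by
    have h1 : ∑ x, b (((S : SL(2, ℤ)) * T) • x) = ∑ x, b x :=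
      Equiv.sum_comp (MulAction.toPerm ((S : SL(2, ℤ)) * T)) b
    have h1' : ∑ x, b (((S : SL(2, ℤ)) * T) • (((S : SL(2, ℤ)) * T) • x)) = ∑ x, b x := by
      have := Equiv.sum_comp (MulAction.toPerm ((S : SL(2, ℤ)) * T))
        (fun x => b (((S : SL(2, ℤ)) * T) • x))
      rw [← h1, ← this]
      rfl
    have h2 : ∑ x, (b x + b (((S : SL(2, ℤ)) * T) • x)
        + b (((S : SL(2, ℤ)) * T) • (((S : SL(2, ℤ)) * T) • x))) = 0 :=
      Finset.sum_eq_zero (fun x _ => hbrel x)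
    rw [Finset.sum_add_distrib, Finset.sum_add_distrib, h1, h1'] at h2
    omega
  have hsumc : ∑ x, κ T x = 0 := by
    have h1 : ∑ x, κ T x = ∑ x, (b ((S : SL(2, ℤ)) • x) - a ((S : SL(2, ℤ)) • x)) :=
      Finset.sum_congr rfl (fun x _ => hc x)
    have h2 : ∑ x, b ((S : SL(2, ℤ)) • x) = ∑ x, b x :=
      Equiv.sum_comp (MulAction.toPerm (S : SL(2, ℤ))) b
    have h3 : ∑ x, a ((S : SL(2, ℤ)) • x) = ∑ x, a x :=
      Equiv.sum_comp (MulAction.toPerm (S : SL(2, ℤ))) a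
    rw [h1, Finset.sum_sub_distrib, h2, h3, hsuma, hsumb, sub_zero]
  -- vanishing on `T ^ m` at fixed points
  have hTnat : ∀ (m : ℕ) (y : SL(2, ℤ) ⧸ Gamma0 p), (T ^ m : SL(2, ℤ)) • y = y →
      κ (T ^ m) y = 0 := by
    intro m y hy
    rw [hκ.apply_T_pow]
    exact h94_sum_orbit_eq_zero p (κ T) hc0 hsumc y m hy
  have hTint : ∀ (m : ℤ) (y : SL(2, ℤ) ⧸ Gamma0 p), (T ^ m : SL(2, ℤ)) • y = y →
      κ (T ^ m) y = 0 := by
    intro m y hy
    rcases Int.eq_nat_or_neg m with ⟨m', rfl | rfl⟩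
    · rw [zpow_natCast] at hy ⊢
      exact hTnat m' y hy
    · rw [zpow_neg, zpow_natCast] at hy ⊢
      have hy' : (T ^ m' : SL(2, ℤ)) • y = y := by
        conv_lhs => rw [← hy]
        rw [smul_inv_smul]
      rw [hκ.inv, hy', hTnat m' y hy', neg_zero]
  -- the homomorphism
  have hfixΓ : ∀ γ : Gamma0 p, (γ : SL(2, ℤ)) • h94_x0 p = h94_x0 p :=
    fun γ => (h94_smul_x0_eq_iff p _).mpr γ.2
  let β : Additive (Gamma0 p) →+ ℤ :=
    { toFun := fun γ => κ ((Additive.toMul γ : Gamma0 p) : SL(2, ℤ)) (h94_x0 p)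
      map_zero' := hκ.one _
      map_add' := fun γ γ' =>
        hκ.apply_mul_of_fix _ _ _ (hfixΓ (Additive.toMul γ)) }
  have hβ : ∀ γ : Gamma0 p, β (Additive.ofMul γ) = κ (γ : SL(2, ℤ)) (h94_x0 p) := fun _ => rfl
  refine ⟨β, ?_, ?_⟩
  · -- parabolic
    rw [Period.mem_parabolicHoms_iff]
    intro γ hγ
    rw [hβ]
    obtain ⟨δ, hδ⟩ := Fermat.Agent.S21.P.exists_conj_upper (γ : SL(2, ℤ)) hγ
    obtain ⟨m, hm⟩ := h94_eq_T_zpow_of_c_eq_zero _ hδ
    have hγeq : (γ : SL(2, ℤ)) = δ * (δ⁻¹ * γ * δ) * δ⁻¹ := by group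
    have hfix : (δ * (δ⁻¹ * (γ : SL(2, ℤ)) * δ) * δ⁻¹) • h94_x0 p = h94_x0 p := by
      rw [← hγeq]; exact hfixΓ γ
    rw [hγeq, hκ.apply_conj δ _ _ hfix]
    have hty : (δ⁻¹ * (γ : SL(2, ℤ)) * δ) • (δ⁻¹ • h94_x0 p) = δ⁻¹ • h94_x0 p := by
      rw [← mul_smul, mul_assoc, mul_inv_cancel, mul_one, mul_smul, hfixΓ γ]
    rcases hm with hm | hm
    · rw [hm] at hty ⊢
      exact hTint m _ hty
    · rw [hm] at hty ⊢
      rw [hκ.neg hneg hSrel]
      apply hTint m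
      have : (-(T ^ m) : SL(2, ℤ)) = (-1) * T ^ m := by rw [neg_one_mul]
      rw [this, mul_smul, hneg] at hty
      exact hty
  · -- reduction modulo `n`
    intro γ
    rw [hβ]
    have hκ' := hκ.comp (Int.castAddHom (ZMod (eisensteinNumerator p)))
    have h1 := h94_cocycle_ext hκ' (h94_kbar_isCocycle p)
      (by funext x; show ((κ S x : ℤ) : ZMod (eisensteinNumerator p)) = _; rw [hκS]; exact ha x)
      (by funext x; show ((κ (S * T) x : ℤ) : ZMod (eisensteinNumerator p)) = _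
          rw [hκU]; exact hb x)
      (γ : SL(2, ℤ))
    have h2 := congrFun h1 (h94_x0 p)
    show ((κ (γ : SL(2, ℤ)) (h94_x0 p) : ℤ) : ZMod (eisensteinNumerator p)) = _
    rw [← h94_kbar_base]
    exact h2

end Fermat.Agent.S16.Coh
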