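import Mathlib

/-!
# P-EIS (S16), cohomological lower bound, module M1: the presentation of `PSL(2, ℤ)`

For every group `H` and `s u : H` with `s ^ 2 = 1` and `u ^ 3 = 1` there is a homomorphism
`Φ : SL(2, ℤ) →* H` with `Φ S = s` and `Φ (S * T) = u`.

Proof: the ping-pong lemma (`Monoid.CoprodI.lift_injective_of_ping_pong`) for the action of
`S` and `U = S * T` on the upper half plane, with the two half planes `0 < re z`, `re z < 0`.
-/

set_option autoImplicit false

open scoped MatrixGroups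
open UpperHalfPlane ModularGroup

namespace Fermat.Agent.S16.Coh

/-- the hom `ℤ/n → G` sending `1` to `g` (multiplicative notation), for `g ^ n = 1`. -/
noncomputable def h94_cycHom {G : Type*} [Group G] (n : ℕ) (g : G) (hg : g ^ n = 1) :
    Multiplicative (ZMod n) →* G :=
  AddMonoidHom.toMultiplicativeLeft
    (ZMod.lift n ⟨zmultiplesHom (Additive G) (Additive.ofMul g), by
      show (zmultiplesHom (Additive G) (Additive.ofMul g)) (n : ℤ) = 0
      rw [zmultiplesHom_apply, natCast_zsmul, ← ofMul_pow, hg]; rfl⟩)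

theorem h94_cycHom_apply {G : Type*} [Group G] (n : ℕ) (g : G) (hg : g ^ n = 1) (k : ℤ) :
    h94_cycHom n g hg (Multiplicative.ofAdd (k : ZMod n)) = g ^ k := by
  unfold h94_cycHom
  rw [AddMonoidHom.coe_toMultiplicativeLeft]
  show Additive.toMul ((ZMod.lift n _) (k : ZMod n)) = g ^ k
  rw [ZMod.lift_coe]
  show Additive.toMul ((zmultiplesHom (Additive G) (Additive.ofMul g)) k) = g ^ k
  rw [zmultiplesHom_apply, ← ofMul_zpow]; rfl

theorem h94_cycHom_gen {G : Type*} [Group G] (n : ℕ) (g : G) (hg : g ^ n = 1) :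
    h94_cycHom n g hg (Multiplicative.ofAdd (1 : ZMod n)) = g := by
  have h := h94_cycHom_apply n g hg 1
  simpa using h

/-- every element of `Multiplicative (ZMod n)` is a power of the generator -/
theorem h94_exists_zpow {n : ℕ} (h : Multiplicative (ZMod n)) :
    ∃ k : ℤ, h = Multiplicative.ofAdd ((k : ℤ) : ZMod n) := by
  obtain ⟨k, hk⟩ := ZMod.intCast_surjective (Multiplicative.toAdd h)
  exact ⟨k, by rw [hk]; rfl⟩

/-- the orders `2`, `3` -/
def h94_ord (b : Bool) : ℕ := bif b then 3 else 2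

/-- the two cyclic groups -/
abbrev h94_Fam (b : Bool) : Type := Multiplicative (ZMod (h94_ord b))

/-- the action of `SL(2, ℤ)` on `ℍ` as a homomorphism to `Perm ℍ` -/
noncomputable def h94_rho : SL(2, ℤ) →* Equiv.Perm ℍ := MulAction.toPermHom SL(2, ℤ) ℍ

theorem h94_rho_apply (g : SL(2, ℤ)) (z : ℍ) : h94_rho g z = g • z := rfl

theorem h94_S_sq : (S : SL(2, ℤ)) ^ 2 = -1 := by
  ext i j
  fin_cases i <;> fin_cases j <;> simp [pow_two, coe_S, Matrix.mul_apply, Fin.sum_univ_two]

theorem h94_U_cube : ((S : SL(2, ℤ)) * T) ^ 3 = -1 := by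
  ext i j
  fin_cases i <;> fin_cases j <;>
    simp [pow_succ, coe_S, coe_T, Matrix.mul_apply, Fin.sum_univ_two]

theorem h94_neg_one_smul (z : ℍ) : (-1 : SL(2, ℤ)) • z = z := by
  simp

theorem h94_rho_S_sq : h94_rho S ^ 2 = 1 := by
  rw [← map_pow, h94_S_sq]
  ext z
  rw [h94_rho_apply, h94_neg_one_smul]; rfl

theorem h94_rho_U_cube : h94_rho (S * T) ^ 3 = 1 := by
  rw [← map_pow, h94_U_cube]
  ext z
  rw [h94_rho_apply, h94_neg_one_smul]; rfl

/-- the generators `ρ(S)`, `ρ(S T)` -/
noncomputable def h94_gen (b : Bool) : Equiv.Perm ℍ := bif b then h94_rho (S * T) else h94_rho S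

theorem h94_gen_pow (b : Bool) : h94_gen b ^ h94_ord b = 1 := by
  cases b
  · exact h94_rho_S_sq
  · exact h94_rho_U_cube

/-- the family of homs for ping-pong -/
noncomputable def h94_f (b : Bool) : h94_Fam b →* Equiv.Perm ℍ :=
  h94_cycHom (h94_ord b) (h94_gen b) (h94_gen_pow b)

/-- ping-pong sets -/
def h94_X (b : Bool) : Set ℍ := bif b then {z | z.re < 0} else {z | 0 < z.re}

theorem h94_re_S_smul (z : ℍ) : (S • z).re = -z.re / Complex.normSq (z : ℂ) := by
  rw [modular_S_smul]
  show ((-(z : ℂ))⁻¹).re = _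
  rw [Complex.inv_re, Complex.normSq_neg]
  simp

theorem h94_re_T_smul (z : ℍ) : (T • z).re = z.re + 1 := ModularGroup.re_T_smul z

theorem h94_normSq_pos (z : ℍ) : 0 < Complex.normSq (z : ℂ) :=
  Complex.normSq_pos.mpr z.ne_zero

theorem h94_S_maps (z : ℍ) (hz : z.re < 0) : 0 < (S • z).re := by
  rw [h94_re_S_smul]
  exact div_pos (by linarith) (h94_normSq_pos z)

theorem h94_U_maps (z : ℍ) (hz : 0 < z.re) : ((S * T) • z).re < 0 := by
  rw [mul_smul, h94_re_S_smul, h94_re_T_smul]
  exact div_neg_of_neg_of_pos (by linarith) (h94_normSq_pos _)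

theorem h94_Uinv_maps (z : ℍ) (hz : 0 < z.re) : ((S * T)⁻¹ • z).re < 0 := by
  -- `(S T)⁻¹ = T⁻¹ S⁻¹`, `S⁻¹ z = S z` has negative real part
  have h1 : ((S * T)⁻¹ : SL(2, ℤ)) • z = (T⁻¹ : SL(2, ℤ)) • ((S : SL(2, ℤ)) • z) := by
    have hS : (S : SL(2, ℤ))⁻¹ • z = S • z := by
      have h2 : (S : SL(2, ℤ)) • ((S : SL(2, ℤ)) • z) = z := by
        rw [← mul_smul, ← pow_two, h94_S_sq, h94_neg_one_smul]
      calc (S : SL(2, ℤ))⁻¹ • z = (S : SL(2, ℤ))⁻¹ • ((S : SL(2, ℤ)) • ((S : SL(2, ℤ)) • z)) := by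
            rw [h2]
        _ = S • z := by rw [inv_smul_smul]
    rw [mul_inv_rev, mul_smul, hS]
  rw [h1]
  have h3 : ((T⁻¹ : SL(2, ℤ)) • ((S : SL(2, ℤ)) • z)).re = ((S : SL(2, ℤ)) • z).re - 1 := by
    have h4 := h94_re_T_smul ((T⁻¹ : SL(2, ℤ)) • ((S : SL(2, ℤ)) • z))
    rw [smul_inv_smul] at h4
    linarith
  rw [h3, h94_re_S_smul]
  have h5 : -z.re / Complex.normSq (z : ℂ) < 0 :=
    div_neg_of_neg_of_pos (by linarith) (h94_normSq_pos z)
  linarith

/-- the generator of the `b`-th cyclic group -/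
def h94_g (b : Bool) : h94_Fam b := Multiplicative.ofAdd (1 : ZMod (h94_ord b))

theorem h94_fam_false_cases (h : h94_Fam false) : h = 1 ∨ h = h94_g false := by
  have h01 : ∀ x : ZMod 2, x = 0 ∨ x = 1 := by decide
  rcases h01 (Multiplicative.toAdd h) with h0 | h1
  · left; exact congrArg Multiplicative.ofAdd h0
  · right; exact congrArg Multiplicative.ofAdd h1

theorem h94_fam_true_cases (h : h94_Fam true) :
    h = 1 ∨ h = h94_g true ∨ h = (h94_g true)⁻¹ := by
  have h012 : ∀ x : ZMod 3, x = 0 ∨ x = 1 ∨ x = -1 := by decide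
  rcases h012 (Multiplicative.toAdd h) with h0 | h1 | h2
  · left; exact congrArg Multiplicative.ofAdd h0
  · right; left; exact congrArg Multiplicative.ofAdd h1
  · right; right; exact congrArg Multiplicative.ofAdd h2

theorem h94_f_gen (b : Bool) : h94_f b (h94_g b) = h94_gen b :=
  h94_cycHom_gen _ _ _

theorem h94_pingpong : Function.Injective (Monoid.CoprodI.lift h94_f) := by
  classical
  refine Monoid.CoprodI.lift_injective_of_ping_pong h94_f ?_ h94_X ?_ ?_ ?_
  · right
    refine ⟨true, ?_⟩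
    have : Cardinal.mk (h94_Fam true) = 3 := by
      show Cardinal.mk (Multiplicative (ZMod 3)) = 3
      rw [Cardinal.mk_fintype]
      simp [Fintype.card_multiplicative, ZMod.card]
    rw [this]
  · intro b
    cases b
    · exact ⟨⟨⟨1, 1⟩, by simp⟩, by show (0 : ℝ) < _; simp [UpperHalfPlane.re]⟩
    · exact ⟨⟨⟨-1, 1⟩, by simp⟩, by show _ < (0 : ℝ); simp [UpperHalfPlane.re]⟩
  · intro i j hij
    have key : Disjoint (h94_X false) (h94_X true) := by
      rw [Set.disjoint_left]
      intro z hz hz'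
      have h1 : 0 < z.re := hz
      have h2 : z.re < 0 := hz'
      linarith
    cases i <;> cases j
    · exact absurd rfl hij
    · exact key
    · exact key.symm
    · exact absurd rfl hij
  · intro i j hij h hh
    rintro _ ⟨z, hz, rfl⟩
    cases i <;> cases j
    · exact absurd rfl hij
    · -- `i = false` (the group of order 2), `z ∈ X true`
      have hz' : z.re < 0 := hz
      rcases h94_fam_false_cases h with h0 | h1
      · exact absurd h0 hh
      · subst h1
        have e : ((h94_f false (h94_g false)) z).re = ((h94_rho S) z).re := by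
          rw [h94_f_gen]; rfl
        have hgoal : 0 < ((h94_rho S) z).re := h94_S_maps z hz'
        rw [← e] at hgoal
        exact hgoal
    · -- `i = true` (the group of order 3), `z ∈ X false`
      have hz' : 0 < z.re := hz
      rcases h94_fam_true_cases h with h0 | h1 | h2
      · exact absurd h0 hh
      · subst h1
        have e : ((h94_f true (h94_g true)) z).re = ((h94_rho (S * T)) z).re := by
          rw [h94_f_gen]; rfl
        have hgoal : ((h94_rho (S * T)) z).re < 0 := h94_U_maps z hz'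
        rw [← e] at hgoal
        exact hgoal
      · subst h2
        have e : ((h94_f true (h94_g true)⁻¹) z).re = ((h94_rho (S * T)⁻¹) z).re := by
          rw [map_inv, h94_f_gen, map_inv]; rfl
        have hgoal : ((h94_rho (S * T)⁻¹) z).re < 0 := h94_Uinv_maps z hz'
        rw [← e] at hgoal
        exact hgoal
    · exact absurd rfl hij

/-- `ρ g` lies in the range of the ping-pong homomorphism. -/
theorem h94_rho_mem_range (g : SL(2, ℤ)) : h94_rho g ∈ (Monoid.CoprodI.lift h94_f).range := by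
  have hS : h94_rho S ∈ (Monoid.CoprodI.lift h94_f).range :=
    ⟨Monoid.CoprodI.of (h94_g false), by
      rw [Monoid.CoprodI.lift_of]; exact h94_f_gen false⟩
  have hU : h94_rho (S * T) ∈ (Monoid.CoprodI.lift h94_f).range :=
    ⟨Monoid.CoprodI.of (h94_g true), by
      rw [Monoid.CoprodI.lift_of]; exact h94_f_gen true⟩
  have hT : h94_rho T ∈ (Monoid.CoprodI.lift h94_f).range := by
    have : h94_rho T = (h94_rho S)⁻¹ * h94_rho (S * T) := by
      rw [map_mul, inv_mul_cancel_left]
    rw [this]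
    exact mul_mem (inv_mem hS) hU
  have hg : g ∈ Subgroup.closure ({S, T} : Set SL(2, ℤ)) := by
    rw [SpecialLinearGroup.SL2Z_generators]; trivial
  have hle : Subgroup.closure ({S, T} : Set SL(2, ℤ)) ≤
      (Monoid.CoprodI.lift h94_f).range.comap h94_rho := by
    rw [Subgroup.closure_le]
    rintro x (rfl | rfl)
    · exact hS
    · exact hT
  exact hle hg

/-- the inverse of the ping-pong isomorphism, composed with `ρ` -/
noncomputable def h94_theta : SL(2, ℤ) →* Monoid.CoprodI h94_Fam :=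
  (MonoidHom.ofInjective h94_pingpong).symm.toMonoidHom.comp
    (h94_rho.codRestrict (Monoid.CoprodI.lift h94_f).range h94_rho_mem_range)

theorem h94_theta_eq {g : SL(2, ℤ)} {w : Monoid.CoprodI h94_Fam}
    (h : Monoid.CoprodI.lift h94_f w = h94_rho g) : h94_theta g = w := by
  show (MonoidHom.ofInjective h94_pingpong).symm _ = w
  rw [MulEquiv.symm_apply_eq]
  apply Subtype.ext
  rw [MonoidHom.ofInjective_apply]
  exact h.symm

theorem h94_theta_S : h94_theta S = Monoid.CoprodI.of (h94_g false) :=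
  h94_theta_eq (by rw [Monoid.CoprodI.lift_of]; exact h94_f_gen false)

theorem h94_theta_U : h94_theta (S * T) = Monoid.CoprodI.of (h94_g true) :=
  h94_theta_eq (by rw [Monoid.CoprodI.lift_of]; exact h94_f_gen true)

/-- **The presentation of `PSL(2, ℤ)`**: `s ^ 2 = 1`, `u ^ 3 = 1` define a homomorphism
`SL(2, ℤ) →* H` with `S ↦ s`, `S * T ↦ u`. -/
theorem h94_exists_hom_of_relations {H : Type*} [Group H] (s u : H) (hs : s ^ 2 = 1)
    (hu : u ^ 3 = 1) :
    ∃ Φ : SL(2, ℤ) →* H, Φ S = s ∧ Φ (S * T) = u := by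
  let gens : Bool → H := fun b => bif b then u else s
  have hgens : ∀ b, gens b ^ h94_ord b = 1 := by
    intro b
    cases b
    · exact hs
    · exact hu
  let Ψ : Monoid.CoprodI h94_Fam →* H :=
    Monoid.CoprodI.lift (fun b => h94_cycHom (h94_ord b) (gens b) (hgens b))
  refine ⟨Ψ.comp h94_theta, ?_, ?_⟩
  · rw [MonoidHom.comp_apply, h94_theta_S, Monoid.CoprodI.lift_of]
    exact h94_cycHom_gen _ _ _
  · rw [MonoidHom.comp_apply, h94_theta_U, Monoid.CoprodI.lift_of]
    exact h94_cycHom_gen _ _ _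

end Fermat.Agent.S16.Coh
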