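import Fermat.Agent.S16.Coh.Presentation

/-!
# P-EIS (S16), cohomological lower bound, module M2: cocycles of `SL(2, ℤ)` in `X → A`

`X` is a set with an action of `SL(2, ℤ)` on which `-1` acts trivially, `A` an abelian group.
A *cocycle* is a map `κ : SL(2, ℤ) → X → A` with `κ (g h) y = κ g y + κ h (g⁻¹ y)`.

* `h94_exists_cocycle`: for `a b : X → A` with `a x + a (S x) = 0` and
  `b x + b (U x) + b (U² x) = 0` (`U = S T`) there is a cocycle with `κ S = a`, `κ U = b`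
  (this is the presentation of `PSL(2, ℤ)`).
* `h94_cocycle_ext`: two cocycles which agree on `S` and `S T` agree.
* formulas: `κ 1`, `κ g⁻¹`, `κ (-1)`, `κ T`, `κ (T ^ m)`, conjugation.
-/

set_option autoImplicit false

open scoped MatrixGroups
open ModularGroup

namespace Fermat.Agent.S16.Coh

section Aff

variable {X : Type*} [MulAction SL(2, ℤ) X] {A : Type*} [AddCommGroup A]

/-- the permutation `(x, v) ↦ (g x, v + F (g x))` of `X × A`. -/
def h94_aff (g : SL(2, ℤ)) (F : X → A) : Equiv.Perm (X × A) where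
  toFun q := (g • q.1, q.2 + F (g • q.1))
  invFun q := (g⁻¹ • q.1, q.2 - F q.1)
  left_inv q := by
    apply Prod.ext
    · simp
    · simp
  right_inv q := by
    apply Prod.ext
    · simp
    · simp

theorem h94_aff_apply (g : SL(2, ℤ)) (F : X → A) (q : X × A) :
    h94_aff g F q = (g • q.1, q.2 + F (g • q.1)) := rfl

theorem h94_aff_mul (g h : SL(2, ℤ)) (F F' : X → A) :
    h94_aff g F * h94_aff h F' = h94_aff (g * h) (fun y => F y + F' (g⁻¹ • y)) := by
  apply Equiv.ext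
  intro q
  rw [Equiv.Perm.mul_apply, h94_aff_apply, h94_aff_apply, h94_aff_apply]
  apply Prod.ext
  · simp [mul_smul]
  · simp only [mul_smul, inv_smul_smul]
    abel

theorem h94_aff_one_of_trivial {g : SL(2, ℤ)} (hg : ∀ x : X, g • x = x) {F : X → A}
    (hF : ∀ x, F x = 0) : h94_aff g F = 1 := by
  apply Equiv.ext
  intro q
  rw [h94_aff_apply, hg, hF, add_zero]
  rfl

theorem h94_aff_one : h94_aff (1 : SL(2, ℤ)) (fun _ : X => (0 : A)) = 1 :=
  h94_aff_one_of_trivial (fun x => one_smul _ x) (fun _ => rfl)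

theorem h94_aff_inv (g : SL(2, ℤ)) (F : X → A) :
    (h94_aff g F)⁻¹ = h94_aff g⁻¹ (fun y => - F (g • y)) := by
  rw [inv_eq_iff_mul_eq_one, h94_aff_mul]
  exact h94_aff_one_of_trivial (fun x => by rw [mul_inv_cancel, one_smul])
    (fun x => by simp)

theorem h94_aff_snd_injective (g : SL(2, ℤ)) {F F' : X → A}
    (h : (h94_aff g F : Equiv.Perm (X × A)) = h94_aff g F') : F = F' := by
  funext y
  have h1 := congrArg (fun σ : Equiv.Perm (X × A) => (σ (g⁻¹ • y, 0)).2) h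
  simpa [h94_aff_apply] using h1

end Aff

section Cocycle

variable {X : Type*} [MulAction SL(2, ℤ) X] {A : Type*} [AddCommGroup A]

/-- the cocycle identity -/
def h94_IsCocycle (κ : SL(2, ℤ) → X → A) : Prop :=
  ∀ (g h : SL(2, ℤ)) (y : X), κ (g * h) y = κ g y + κ h (g⁻¹ • y)

theorem h94_S_inv_smul (hneg : ∀ x : X, (-1 : SL(2, ℤ)) • x = x) (x : X) :
    (S : SL(2, ℤ))⁻¹ • x = S • x := by
  have h2 : (S : SL(2, ℤ)) • ((S : SL(2, ℤ)) • x) = x := by
    rw [← mul_smul, ← pow_two, h94_S_sq, hneg]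
  calc (S : SL(2, ℤ))⁻¹ • x = (S : SL(2, ℤ))⁻¹ • ((S : SL(2, ℤ)) • ((S : SL(2, ℤ)) • x)) := by
        rw [h2]
    _ = S • x := by rw [inv_smul_smul]

theorem h94_U_cube_smul (hneg : ∀ x : X, (-1 : SL(2, ℤ)) • x = x) (x : X) :
    ((S : SL(2, ℤ)) * T) • (((S : SL(2, ℤ)) * T) • (((S : SL(2, ℤ)) * T) • x)) = x := by
  have h : (((S : SL(2, ℤ)) * T) ^ 3) • x = x := by rw [h94_U_cube, hneg]
  rw [pow_succ, pow_two, mul_smul, mul_smul] at h
  exact h

theorem h94_U_inv_smul (hneg : ∀ x : X, (-1 : SL(2, ℤ)) • x = x) (x : X) :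
    ((S : SL(2, ℤ)) * T)⁻¹ • x = ((S : SL(2, ℤ)) * T) • (((S : SL(2, ℤ)) * T) • x) := by
  conv_lhs => rw [← h94_U_cube_smul hneg x]
  rw [inv_smul_smul]

theorem h94_affS_sq (hneg : ∀ x : X, (-1 : SL(2, ℤ)) • x = x) (a : X → A)
    (ha : ∀ x, a x + a ((S : SL(2, ℤ)) • x) = 0) :
    (h94_aff S a : Equiv.Perm (X × A)) ^ 2 = 1 := by
  rw [pow_two, h94_aff_mul]
  refine h94_aff_one_of_trivial (fun x => ?_) (fun x => ?_)
  · rw [← pow_two, h94_S_sq, hneg]
  · show a x + a ((S : SL(2, ℤ))⁻¹ • x) = 0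
    rw [h94_S_inv_smul hneg, ha]

theorem h94_affU_cube (hneg : ∀ x : X, (-1 : SL(2, ℤ)) • x = x) (b : X → A)
    (hb : ∀ x, b x + b (((S : SL(2, ℤ)) * T) • x)
      + b (((S : SL(2, ℤ)) * T) • (((S : SL(2, ℤ)) * T) • x)) = 0) :
    (h94_aff (S * T) b : Equiv.Perm (X × A)) ^ 3 = 1 := by
  rw [pow_succ, pow_two, h94_aff_mul, h94_aff_mul]
  refine h94_aff_one_of_trivial (fun x => ?_) (fun x => ?_)
  · rw [mul_smul, mul_smul]
    exact h94_U_cube_smul hneg x
  · show b x + b (((S : SL(2, ℤ)) * T)⁻¹ • x)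
      + b ((((S : SL(2, ℤ)) * T) * ((S : SL(2, ℤ)) * T))⁻¹ • x) = 0
    have h1 : ((((S : SL(2, ℤ)) * T) * ((S : SL(2, ℤ)) * T))⁻¹ : SL(2, ℤ)) • x
        = ((S : SL(2, ℤ)) * T) • x := by
      rw [mul_inv_rev, mul_smul, h94_U_inv_smul hneg x, inv_smul_smul]
    rw [h1, h94_U_inv_smul hneg]
    have := hb x
    rw [← this]
    abel

/-- **existence of cocycles** (from the presentation of `PSL(2, ℤ)`). -/
theorem h94_exists_cocycle (hneg : ∀ x : X, (-1 : SL(2, ℤ)) • x = x) (a b : X → A)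
    (ha : ∀ x, a x + a ((S : SL(2, ℤ)) • x) = 0)
    (hb : ∀ x, b x + b (((S : SL(2, ℤ)) * T) • x)
      + b (((S : SL(2, ℤ)) * T) • (((S : SL(2, ℤ)) * T) • x)) = 0) :
    ∃ κ : SL(2, ℤ) → X → A, h94_IsCocycle κ ∧ κ S = a ∧ κ (S * T) = b := by
  obtain ⟨Φ, hΦS, hΦU⟩ := h94_exists_hom_of_relations
    (h94_aff S a : Equiv.Perm (X × A)) (h94_aff (S * T) b)
    (h94_affS_sq hneg a ha) (h94_affU_cube hneg b hb)
  -- every `Φ g` is affine
  let K : Subgroup SL(2, ℤ) :=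
    { carrier := {g | ∃ F : X → A, Φ g = h94_aff g F}
      one_mem' := ⟨fun _ => 0, by rw [map_one]; exact h94_aff_one.symm⟩
      mul_mem' := by
        rintro g h ⟨F, hF⟩ ⟨F', hF'⟩
        exact ⟨_, by rw [map_mul, hF, hF', h94_aff_mul]⟩
      inv_mem' := by
        rintro g ⟨F, hF⟩
        exact ⟨_, by rw [map_inv, hF, h94_aff_inv]⟩ }
  have hS : (S : SL(2, ℤ)) ∈ K := ⟨a, hΦS⟩
  have hU : ((S : SL(2, ℤ)) * T) ∈ K := ⟨b, hΦU⟩
  have hT : (T : SL(2, ℤ)) ∈ K := by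
    have : (T : SL(2, ℤ)) = S⁻¹ * (S * T) := by rw [inv_mul_cancel_left]
    rw [this]
    exact K.mul_mem (K.inv_mem hS) hU
  have hK : ∀ g : SL(2, ℤ), g ∈ K := by
    intro g
    have hg : g ∈ Subgroup.closure ({S, T} : Set SL(2, ℤ)) := by
      rw [SpecialLinearGroup.SL2Z_generators]; trivial
    have hle : Subgroup.closure ({S, T} : Set SL(2, ℤ)) ≤ K := by
      rw [Subgroup.closure_le]
      rintro x (rfl | rfl)
      · exact hS
      · exact hT
    exact hle hg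
  choose κ hκ using hK
  refine ⟨κ, ?_, ?_, ?_⟩
  · intro g h y
    have h1 : Φ (g * h) = h94_aff (g * h) (fun y => κ g y + κ h (g⁻¹ • y)) := by
      rw [map_mul, hκ g, hκ h, h94_aff_mul]
    have h2 := h94_aff_snd_injective (g * h) ((hκ (g * h)).symm.trans h1)
    exact congrFun h2 y
  · exact h94_aff_snd_injective S ((hκ S).symm.trans hΦS)
  · exact h94_aff_snd_injective (S * T) ((hκ (S * T)).symm.trans hΦU)

variable {κ : SL(2, ℤ) → X → A}

theorem h94_IsCocycle.one (hκ : h94_IsCocycle κ) (y : X) : κ 1 y = 0 := by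
  have h := hκ 1 1 y
  rw [mul_one, inv_one, one_smul] at h
  have : κ 1 y + 0 = κ 1 y + κ 1 y := by rw [add_zero]; exact h
  exact (add_left_cancel this).symm

theorem h94_IsCocycle.inv (hκ : h94_IsCocycle κ) (g : SL(2, ℤ)) (y : X) :
    κ g⁻¹ y = - κ g (g • y) := by
  have h := hκ g⁻¹ g y
  rw [inv_mul_cancel, hκ.one, inv_inv] at h
  exact eq_neg_of_add_eq_zero_left h.symm

/-- **uniqueness**: cocycles are determined by their values on `S` and `S T`. -/
theorem h94_cocycle_ext {κ κ' : SL(2, ℤ) → X → A} (hκ : h94_IsCocycle κ)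
    (hκ' : h94_IsCocycle κ') (hS : κ S = κ' S) (hU : κ (S * T) = κ' (S * T)) (g : SL(2, ℤ)) :
    κ g = κ' g := by
  let K : Subgroup SL(2, ℤ) :=
    { carrier := {g | κ g = κ' g}
      one_mem' := by
        funext y
        rw [hκ.one, hκ'.one]
      mul_mem' := by
        intro g h hg hh
        funext y
        have hg' : κ g = κ' g := hg
        have hh' : κ h = κ' h := hh
        rw [hκ g h y, hκ' g h y, hg', hh']
      inv_mem' := by
        intro g hg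
        funext y
        have hg' : κ g = κ' g := hg
        rw [hκ.inv, hκ'.inv, hg'] }
  have hS' : (S : SL(2, ℤ)) ∈ K := hS
  have hU' : ((S : SL(2, ℤ)) * T) ∈ K := hU
  have hT : (T : SL(2, ℤ)) ∈ K := by
    have : (T : SL(2, ℤ)) = S⁻¹ * (S * T) := by rw [inv_mul_cancel_left]
    rw [this]
    exact K.mul_mem (K.inv_mem hS') hU'
  have hg : g ∈ Subgroup.closure ({S, T} : Set SL(2, ℤ)) := by
    rw [SpecialLinearGroup.SL2Z_generators]; trivial
  have hle : Subgroup.closure ({S, T} : Set SL(2, ℤ)) ≤ K := by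
    rw [Subgroup.closure_le]
    rintro x (rfl | rfl)
    · exact hS'
    · exact hT
  exact hle hg

/-- composition of a cocycle with an additive map -/
theorem h94_IsCocycle.comp {A' : Type*} [AddCommGroup A'] (hκ : h94_IsCocycle κ) (π : A →+ A') :
    h94_IsCocycle (fun g y => π (κ g y)) := by
  intro g h y
  show π (κ (g * h) y) = π (κ g y) + π (κ h (g⁻¹ • y))
  rw [hκ g h y, map_add]

theorem h94_IsCocycle.neg_one (hκ : h94_IsCocycle κ) (hneg : ∀ x : X, (-1 : SL(2, ℤ)) • x = x)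
    (hS : ∀ x, κ S x + κ S ((S : SL(2, ℤ)) • x) = 0) (y : X) : κ (-1) y = 0 := by
  have h := hκ S S y
  rw [← pow_two, h94_S_sq, h94_S_inv_smul hneg, hS] at h
  exact h

theorem h94_IsCocycle.neg (hκ : h94_IsCocycle κ) (hneg : ∀ x : X, (-1 : SL(2, ℤ)) • x = x)
    (hS : ∀ x, κ S x + κ S ((S : SL(2, ℤ)) • x) = 0) (g : SL(2, ℤ)) (y : X) :
    κ (-g) y = κ g y := by
  have h := hκ (-1) g y
  rw [neg_one_mul, hκ.neg_one hneg hS, zero_add] at h
  rw [h]
  congr 1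
  have : ((-1 : SL(2, ℤ)))⁻¹ = -1 := by
    rw [inv_eq_iff_mul_eq_one]; simp
  rw [this, hneg]

/-- the value on `T` -/
theorem h94_IsCocycle.apply_T (hκ : h94_IsCocycle κ) (y : X) :
    κ T y = κ (S * T) ((S : SL(2, ℤ)) • y) - κ S ((S : SL(2, ℤ)) • y) := by
  have h := hκ S⁻¹ (S * T) y
  rw [inv_mul_cancel_left, inv_inv, hκ.inv] at h
  rw [h]
  abel

/-- the value on `T ^ m` -/
theorem h94_IsCocycle.apply_T_pow (hκ : h94_IsCocycle κ) (m : ℕ) (y : X) :
    κ (T ^ m) y = ∑ j ∈ Finset.range m, κ T (((T : SL(2, ℤ)) ^ j)⁻¹ • y) := by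
  induction m with
  | zero => simp [hκ.one]
  | succ m ih =>
    rw [pow_succ, hκ (T ^ m) T y, ih, Finset.sum_range_succ]

/-- the value on a conjugate fixing `x₀` -/
theorem h94_IsCocycle.apply_conj (hκ : h94_IsCocycle κ) (g t : SL(2, ℤ)) (x₀ : X)
    (hfix : (g * t * g⁻¹) • x₀ = x₀) :
    κ (g * t * g⁻¹) x₀ = κ t (g⁻¹ • x₀) := by
  have hfix' : g • (t⁻¹ • (g⁻¹ • x₀)) = x₀ := by
    have h1 : (g * t * g⁻¹)⁻¹ • x₀ = x₀ := by
      conv_lhs => rw [← hfix]
      rw [inv_smul_smul]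
    have h2 : g • (t⁻¹ • (g⁻¹ • x₀)) = (g * t * g⁻¹)⁻¹ • x₀ := by
      simp [mul_smul]
    rw [h2, h1]
  rw [mul_assoc, hκ g (t * g⁻¹) x₀, hκ t g⁻¹ (g⁻¹ • x₀), hκ.inv, hfix']
  abel

/-- additivity on the stabiliser of `x₀` -/
theorem h94_IsCocycle.apply_mul_of_fix (hκ : h94_IsCocycle κ) (g h : SL(2, ℤ)) (x₀ : X)
    (hg : g • x₀ = x₀) : κ (g * h) x₀ = κ g x₀ + κ h x₀ := by
  rw [hκ g h x₀]
  congr 2
  conv_lhs => rw [← hg]
  rw [inv_smul_smul]

end Cocycle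

end Fermat.Agent.S16.Coh
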